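import Mathlib

/-!
# PROJECT C, slice C3c (part 1): ring automorphisms and adic valuations

For a Dedekind domain `R` with fraction field `F`, a ring automorphism `e` of `R` extending to
`ẽ : F ≃+* F` and a height one prime `w`: the prime `w.comap e` satisfies
`(w.comap e).valuation F x = w.valuation F (ẽ x)`.
-/

set_option autoImplicit false

noncomputable section

namespace Fermat.Agent.CFT.C3.GaloisVal

open IsDedekindDomain WithZero

variable {R : Type*} [CommRing R]

section
variable [IsDedekindDomain R]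

/-- The preimage of a height one prime under a ring automorphism. -/
def comapEquiv (e : R ≃+* R) (w : HeightOneSpectrum R) : HeightOneSpectrum R where
  asIdeal := w.asIdeal.comap e
  isPrime := Ideal.comap_isPrime e w.asIdeal
  ne_bot := by
    intro h
    apply w.ne_bot
    rw [eq_bot_iff]
    intro x hx
    have : e.symm x ∈ w.asIdeal.comap e := by
      rw [Ideal.mem_comap, RingEquiv.apply_symm_apply]
      exact hx
    rw [h, Ideal.mem_bot] at this
    rw [Ideal.mem_bot, ← e.apply_symm_apply x, this, map_zero]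

end

@[simp] theorem comapEquiv_asIdeal [IsDedekindDomain R] (e : R ≃+* R) (w : HeightOneSpectrum R) :
    (comapEquiv e w).asIdeal = w.asIdeal.comap e := rfl

variable [IsDedekindDomain R]

theorem mem_comapEquiv_pow (e : R ≃+* R) (w : HeightOneSpectrum R) (n : ℕ) (r : R) :
    r ∈ (comapEquiv e w).asIdeal ^ n ↔ e r ∈ w.asIdeal ^ n := by
  have h1 : (comapEquiv e w).asIdeal = w.asIdeal.map e.symm := by
    rw [comapEquiv_asIdeal]
    exact (Ideal.map_symm e).symm
  rw [h1, ← Ideal.map_pow, Ideal.map_symm, Ideal.mem_comap]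

/-- two elements of `ℤᵐ⁰` below `1` with the same comparison to all `exp (-n)` are equal -/
theorem eq_of_forall_le_exp_iff {a b : ℤᵐ⁰} (ha : a ≤ 1) (hb : b ≤ 1)
    (h : ∀ n : ℕ, a ≤ exp (-(n : ℤ)) ↔ b ≤ exp (-(n : ℤ))) : a = b := by
  by_cases ha0 : a = 0
  · subst ha0
    by_contra hne
    have hb0 : b ≠ 0 := fun h' => hne h'.symm
    obtain ⟨k, hk⟩ : ∃ k : ℤ, b = exp k := ⟨log b, (exp_log hb0).symm⟩
    have hk0 : k ≤ 0 := by
      rw [hk, ← exp_zero, exp_le_exp] at hb
      exact hb
    obtain ⟨m, hm⟩ : ∃ m : ℕ, k = -(m : ℤ) := ⟨(-k).toNat, by omega⟩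
    have := (h (m + 1)).mp zero_le
    rw [hk, exp_le_exp] at this
    push_cast at this
    omega
  by_cases hb0 : b = 0
  · subst hb0
    exfalso
    obtain ⟨k, hk⟩ : ∃ k : ℤ, a = exp k := ⟨log a, (exp_log ha0).symm⟩
    have hk0 : k ≤ 0 := by
      rw [hk, ← exp_zero, exp_le_exp] at ha
      exact ha
    obtain ⟨m, hm⟩ : ∃ m : ℕ, k = -(m : ℤ) := ⟨(-k).toNat, by omega⟩
    have := (h (m + 1)).mpr zero_le
    rw [hk, exp_le_exp] at this
    push_cast at this
    omega
  obtain ⟨k, hk⟩ : ∃ k : ℤ, a = exp k := ⟨log a, (exp_log ha0).symm⟩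
  obtain ⟨l, hl⟩ : ∃ l : ℤ, b = exp l := ⟨log b, (exp_log hb0).symm⟩
  have hk0 : k ≤ 0 := by
    rw [hk, ← exp_zero, exp_le_exp] at ha
    exact ha
  have hl0 : l ≤ 0 := by
    rw [hl, ← exp_zero, exp_le_exp] at hb
    exact hb
  obtain ⟨m, hm⟩ : ∃ m : ℕ, k = -(m : ℤ) := ⟨(-k).toNat, by omega⟩
  obtain ⟨m', hm'⟩ : ∃ m' : ℕ, l = -(m' : ℤ) := ⟨(-l).toNat, by omega⟩
  have h1 := (h m).mp (by rw [hk, exp_le_exp]; omega)
  have h2 := (h m').mpr (by rw [hl, exp_le_exp]; omega)
  rw [hl, exp_le_exp] at h1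
  rw [hk, exp_le_exp] at h2
  rw [hk, hl]
  congr 1
  omega

theorem intValuation_comapEquiv (e : R ≃+* R) (w : HeightOneSpectrum R) (r : R) :
    (comapEquiv e w).intValuation r = w.intValuation (e r) := by
  apply eq_of_forall_le_exp_iff (HeightOneSpectrum.intValuation_le_one _ _)
    (HeightOneSpectrum.intValuation_le_one _ _)
  intro n
  rw [HeightOneSpectrum.intValuation_le_pow_iff_mem, HeightOneSpectrum.intValuation_le_pow_iff_mem,
    mem_comapEquiv_pow]

variable {F : Type*} [Field F] [Algebra R F] [IsFractionRing R F]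

theorem valuation_comapEquiv (e : R ≃+* R) (e' : F ≃+* F)
    (h : ∀ r, e' (algebraMap R F r) = algebraMap R F (e r)) (w : HeightOneSpectrum R) (x : F) :
    (comapEquiv e w).valuation F x = w.valuation F (e' x) := by
  obtain ⟨r, s, hs, rfl⟩ := IsFractionRing.div_surjective (A := R) x
  rw [map_div₀, map_div₀, map_div₀, h, h, HeightOneSpectrum.valuation_of_algebraMap,
    HeightOneSpectrum.valuation_of_algebraMap, HeightOneSpectrum.valuation_of_algebraMap,
    HeightOneSpectrum.valuation_of_algebraMap, intValuation_comapEquiv, intValuation_comapEquiv]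

end Fermat.Agent.CFT.C3.GaloisVal
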