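import Fermat.Agent.CFT.C3.SUnitHerbrand

/-!
# PROJECT C, slice C3d: rational primes below places, `T`-units keyed by rational primes,
and generation of the ideal class group by primes over a finite set of rational primes

* `natPrime L w : Nat.Primes` : the rational prime below a finite place `w` of `L`;
* `aboveQ L T : Finset (HeightOneSpectrum (𝓞 L))` : the places above a finite set `T` of rational
  primes; `above_aboveQ : above K L (aboveQ K T) = aboveQ L T`;
* `mem_TUnits_aboveQ_iff` : the `T`-units of `SUnitRank` for `aboveQ L T` in elementary terms;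
* `valuation_eq_exp_neg_count` : `w.valuation L a = exp (-count L w (spanSingleton a))`;
* `exists_finset_forall_exists_count_eq`, `exists_finset_forall_exists_log_valuation_eq` :
  **there is a finite set `T` of rational primes such that every fractional ideal (every finitely
  supported family of exponents) is realised by a principal ideal at all places not above `T`**,
  i.e. `J_L = Lˣ · J_{L,T}`.
-/

set_option autoImplicit false

open IsDedekindDomain NumberField Module
open scoped nonZeroDivisors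

namespace Fermat.Agent.CFT.C3.ClassGen

open Fermat.Agent.CFT.C3.SUnitRank Fermat.Agent.CFT.C3.SUnitHerbrand

variable (K : Type*) [Field K] [NumberField K]
variable (L : Type*) [Field L] [NumberField L]

/-! ### The rational prime below a place -/

theorem exists_natPrime_mem (w : HeightOneSpectrum (𝓞 L)) :
    ∃ q : Nat.Primes, (((q : ℕ) : 𝓞 L)) ∈ w.asIdeal := by
  have : w.asIdeal.IsMaximal := w.isMaximal
  let _ := Ideal.Quotient.field w.asIdeal
  have : Finite (𝓞 L ⧸ w.asIdeal) := Ideal.finiteQuotientOfFreeOfNeBot _ w.ne_bot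
  obtain ⟨p, hp⟩ := CharP.exists (𝓞 L ⧸ w.asIdeal)
  have hprime : p.Prime :=
    (CharP.char_is_prime_or_zero (𝓞 L ⧸ w.asIdeal) p).resolve_right
      (CharP.char_ne_zero_of_finite (𝓞 L ⧸ w.asIdeal) p)
  refine ⟨⟨p, hprime⟩, ?_⟩
  rw [← Ideal.Quotient.eq_zero_iff_mem, map_natCast]
  exact CharP.cast_eq_zero _ p

/-- The rational prime below the finite place `w`. -/
noncomputable def natPrime (w : HeightOneSpectrum (𝓞 L)) : Nat.Primes :=
  (exists_natPrime_mem L w).choose

theorem natPrime_mem (w : HeightOneSpectrum (𝓞 L)) :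
    (((natPrime L w : Nat.Primes) : ℕ) : 𝓞 L) ∈ w.asIdeal :=
  (exists_natPrime_mem L w).choose_spec

omit [NumberField L] in
variable {L} in
theorem eq_of_mem_of_mem {w : HeightOneSpectrum (𝓞 L)} {q q' : Nat.Primes}
    (h : (((q : ℕ) : 𝓞 L)) ∈ w.asIdeal) (h' : (((q' : ℕ) : 𝓞 L)) ∈ w.asIdeal) : q = q' := by
  by_contra hne
  have hco : Nat.Coprime (q : ℕ) (q' : ℕ) :=
    (Nat.coprime_primes q.2 q'.2).mpr fun h => hne (Subtype.ext h)
  have hco' : IsCoprime ((q : ℕ) : ℤ) ((q' : ℕ) : ℤ) := Nat.isCoprime_iff_coprime.mpr hco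
  obtain ⟨a, b, hab⟩ := hco'
  have h1 : (1 : 𝓞 L) = (a : 𝓞 L) * ((q : ℕ) : 𝓞 L) + (b : 𝓞 L) * ((q' : ℕ) : 𝓞 L) := by
    have := congrArg (Int.cast : ℤ → 𝓞 L) hab
    push_cast at this
    exact this.symm
  have h2 : (1 : 𝓞 L) ∈ w.asIdeal := by
    rw [h1]
    exact Ideal.add_mem _ (Ideal.mul_mem_left _ _ h) (Ideal.mul_mem_left _ _ h')
  exact w.isPrime.ne_top ((Ideal.eq_top_iff_one _).mpr h2)

variable {L} in
theorem mem_iff_eq_natPrime {w : HeightOneSpectrum (𝓞 L)} {q : Nat.Primes} :
    (((q : ℕ) : 𝓞 L)) ∈ w.asIdeal ↔ natPrime L w = q :=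
  ⟨fun h => eq_of_mem_of_mem (natPrime_mem L w) h, fun h => h ▸ natPrime_mem L w⟩

/-- Compatibility with `below`. -/
theorem natPrime_below [Algebra K L] (w : HeightOneSpectrum (𝓞 L)) :
    natPrime K (below K L w) = natPrime L w := by
  rw [← mem_iff_eq_natPrime, below_asIdeal, Ideal.under_def, Ideal.mem_comap, map_natCast]
  exact natPrime_mem L w

/-! ### Places above a finite set of rational primes -/

theorem finite_setOf_natPrime_mem (T : Finset Nat.Primes) :
    {w : HeightOneSpectrum (𝓞 L) | natPrime L w ∈ T}.Finite := by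
  have hsub : {w : HeightOneSpectrum (𝓞 L) | natPrime L w ∈ T} ⊆
      ⋃ q ∈ T, {w : HeightOneSpectrum (𝓞 L) |
        w.asIdeal ∣ Ideal.span {(((q : Nat.Primes) : ℕ) : 𝓞 L)}} := by
    intro w hw
    simp only [Set.mem_iUnion, Set.mem_ofPred_eq]
    refine ⟨natPrime L w, hw, ?_⟩
    rw [Ideal.dvd_iff_le, Ideal.span_singleton_le_iff_mem]
    exact natPrime_mem L w
  refine Set.Finite.subset (Set.Finite.biUnion T.finite_toSet fun q _ => ?_) hsub
  apply Ideal.finite_factors
  rw [Ne, Ideal.zero_eq_bot, Ideal.span_singleton_eq_bot]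
  exact_mod_cast q.2.ne_zero

/-- The places of `L` above a finite set of rational primes. -/
noncomputable def aboveQ (T : Finset Nat.Primes) : Finset (HeightOneSpectrum (𝓞 L)) :=
  (finite_setOf_natPrime_mem L T).toFinset

variable {L} in
theorem mem_aboveQ {T : Finset Nat.Primes} {w : HeightOneSpectrum (𝓞 L)} :
    w ∈ aboveQ L T ↔ natPrime L w ∈ T := by
  rw [aboveQ, Set.Finite.mem_toFinset]
  rfl

theorem aboveQ_mono {T T' : Finset Nat.Primes} (h : T ⊆ T') : aboveQ L T ⊆ aboveQ L T' :=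
  fun _ hw => mem_aboveQ.mpr (h (mem_aboveQ.mp hw))

theorem above_aboveQ [Algebra K L] (T : Finset Nat.Primes) :
    above K L (aboveQ K T) = aboveQ L T := by
  ext w
  rw [mem_above, mem_aboveQ, mem_aboveQ, natPrime_below]

/-- The `T`-units for the places above a set of rational primes, in elementary terms. -/
theorem mem_TUnits_aboveQ_iff (T : Finset Nat.Primes) (a : Lˣ) :
    a ∈ TUnits L (aboveQ L T) ↔
      ∀ w : HeightOneSpectrum (𝓞 L), natPrime L w ∉ T → w.valuation L (a : L) = 1 := by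
  constructor
  · intro h w hw
    exact h w (fun hmem => hw (mem_aboveQ.mp (by simpa using hmem)))
  · intro h w hw
    exact h w (fun hmem => hw (by simpa using mem_aboveQ.mpr hmem))

/-- Same, with "`w` lies over `q`" spelled out as `(q : 𝓞 L) ∈ w.asIdeal`. -/
theorem mem_TUnits_aboveQ_iff' (T : Finset Nat.Primes) (a : Lˣ) :
    a ∈ TUnits L (aboveQ L T) ↔
      ∀ (w : HeightOneSpectrum (𝓞 L)) (q : Nat.Primes), (((q : ℕ) : 𝓞 L)) ∈ w.asIdeal → q ∉ T →
        w.valuation L (a : L) = 1 := by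
  rw [mem_TUnits_aboveQ_iff]
  constructor
  · intro h w q hq hqT
    exact h w (by rwa [mem_iff_eq_natPrime.mp hq])
  · intro h w hw
    exact h w (natPrime L w) (natPrime_mem L w) hw

/-- The group on which `SUnitHerbrand.galAdd K L (aboveQ K T)` acts, in elementary terms. -/
theorem mem_TUnits_above_aboveQ_iff [Algebra K L] (T : Finset Nat.Primes) (a : Lˣ) :
    a ∈ TUnits L (above K L (aboveQ K T)) ↔
      ∀ (w : HeightOneSpectrum (𝓞 L)) (q : Nat.Primes), (((q : ℕ) : 𝓞 L)) ∈ w.asIdeal → q ∉ T →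
        w.valuation L (a : L) = 1 := by
  rw [above_aboveQ, mem_TUnits_aboveQ_iff']

/-! ### Valuations and `FractionalIdeal.count` -/

open FractionalIdeal in
/-- The `w`-adic valuation of `a ≠ 0` is `exp (- count_w (a))`. -/
theorem valuation_eq_exp_neg_count (w : HeightOneSpectrum (𝓞 L)) {a : L} (ha : a ≠ 0) :
    w.valuation L a = WithZero.exp (-(count L w (spanSingleton (𝓞 L)⁰ a))) := by
  obtain ⟨r, s, rfl⟩ := IsLocalization.exists_mk'_eq (𝓞 L)⁰ a
  have hs : (s : 𝓞 L) ≠ 0 := nonZeroDivisors.coe_ne_zero s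
  have hr : r ≠ 0 := by
    rintro rfl
    exact ha (IsLocalization.mk'_zero _)
  have h0 : spanSingleton (𝓞 L)⁰ (IsLocalization.mk' L r s) ≠ 0 := by
    rwa [Ne, spanSingleton_eq_zero_iff]
  have hI : spanSingleton (𝓞 L)⁰ (IsLocalization.mk' L r s) =
      spanSingleton (𝓞 L)⁰ ((algebraMap (𝓞 L) L) (s : 𝓞 L))⁻¹ *
        ((Ideal.span {r} : Ideal (𝓞 L)) : FractionalIdeal (𝓞 L)⁰ L) := by
    rw [coeIdeal_span_singleton, spanSingleton_mul_spanSingleton, IsFractionRing.mk'_eq_div,
      div_eq_inv_mul]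
  rw [HeightOneSpectrum.valuation_of_mk', HeightOneSpectrum.intValuation_if_neg _ hr,
    HeightOneSpectrum.intValuation_if_neg _ hs, count_well_defined L w h0 hI, ← WithZero.exp_sub]
  congr 1
  ring

open FractionalIdeal in
theorem log_valuation_eq_neg_count (w : HeightOneSpectrum (𝓞 L)) {a : L} (ha : a ≠ 0) :
    WithZero.log (w.valuation L a) = -(count L w (spanSingleton (𝓞 L)⁰ a)) := by
  rw [valuation_eq_exp_neg_count L w ha, WithZero.log_exp]

/-! ### Generation of the class group -/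

open FractionalIdeal in
/-- The fractional ideal of an integral ideal has count `0` at primes not dividing it. -/
theorem count_coeIdeal_eq_zero (w : HeightOneSpectrum (𝓞 L)) {J : Ideal (𝓞 L)} (hJ : J ≠ 0)
    (hw : ¬ w.asIdeal ∣ J) : count L w (J : FractionalIdeal (𝓞 L)⁰ L) = 0 := by
  rw [count_coe L w hJ, Nat.cast_eq_zero]
  by_contra h
  exact hw ((Associates.count_ne_zero_iff_dvd hJ w.irreducible).mp h)

open FractionalIdeal in
/-- **Class group generation, ideal form.** There is a finite set `T` of rational primes such that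
every invertible fractional ideal agrees with a principal one at all places not above `T`. -/
theorem exists_finset_forall_exists_count_eq :
    ∃ T : Finset Nat.Primes, ∀ I : (FractionalIdeal (𝓞 L)⁰ L)ˣ, ∃ a : Lˣ,
      ∀ w : HeightOneSpectrum (𝓞 L), natPrime L w ∉ T →
        count L w (spanSingleton (𝓞 L)⁰ (a : L)) = count L w (I : FractionalIdeal (𝓞 L)⁰ L) := by
  classical
  -- integral representatives of the ideal classes
  choose rep hrep using (ClassGroup.mk0_surjective (R := 𝓞 L))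
  have hne : ∀ c, (rep c : Ideal (𝓞 L)) ≠ 0 := fun c => nonZeroDivisors.coe_ne_zero (rep c)
  have hfin : ∀ c, {w : HeightOneSpectrum (𝓞 L) | w.asIdeal ∣ (rep c : Ideal (𝓞 L))}.Finite :=
    fun c => Ideal.finite_factors (hne c)
  refine ⟨Finset.univ.biUnion fun c => (hfin c).toFinset.image (natPrime L), fun I => ?_⟩
  set c := (ClassGroup.mk L I)⁻¹ with hc
  have h1 : ClassGroup.mk L (I * FractionalIdeal.mk0 L (rep c)) = 1 := by
    rw [map_mul, ClassGroup.mk_mk0, hrep c, hc, mul_inv_cancel]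
  obtain ⟨⟨x, hx⟩⟩ := ClassGroup.mk_eq_one_iff.mp h1
  have hx' : ((I * FractionalIdeal.mk0 L (rep c) : (FractionalIdeal (𝓞 L)⁰ L)ˣ) :
      FractionalIdeal (𝓞 L)⁰ L) = spanSingleton (𝓞 L)⁰ x := by
    apply FractionalIdeal.coeToSubmodule_injective
    change ((_ : FractionalIdeal (𝓞 L)⁰ L) : Submodule (𝓞 L) L) =
      ((spanSingleton (𝓞 L)⁰ x : FractionalIdeal (𝓞 L)⁰ L) : Submodule (𝓞 L) L)
    rw [hx, coe_spanSingleton]
  have hx0 : x ≠ 0 := by
    rintro rfl
    rw [spanSingleton_zero] at hx'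
    exact Units.ne_zero _ hx'
  refine ⟨Units.mk0 x hx0, fun w hw => ?_⟩
  rw [Units.val_mk0, ← hx', Units.val_mul, count_mul L w (Units.ne_zero I) (Units.ne_zero _),
    FractionalIdeal.coe_mk0, count_coeIdeal_eq_zero L w (hne c), add_zero]
  intro hdvd
  apply hw
  rw [Finset.mem_biUnion]
  exact ⟨c, Finset.mem_univ _, Finset.mem_image.mpr ⟨w, (hfin c).mem_toFinset.mpr hdvd, rfl⟩⟩

open FractionalIdeal in
/-- **Class group generation, valuation form** (`J_L = Lˣ · J_{L,T}`): there is a finite set `T`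
of rational primes such that every finitely supported family of exponents `n` is realised as
`w ↦ log (w.valuation L a)` for some `a : Lˣ`, at all places `w` not above `T`. -/
theorem exists_finset_forall_exists_log_valuation_eq :
    ∃ T : Finset Nat.Primes, ∀ n : HeightOneSpectrum (𝓞 L) →₀ ℤ, ∃ a : Lˣ,
      ∀ w : HeightOneSpectrum (𝓞 L), natPrime L w ∉ T →
        WithZero.log (w.valuation L (a : L)) = n w := by
  obtain ⟨T, hT⟩ := exists_finset_forall_exists_count_eq L
  refine ⟨T, fun n => ?_⟩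
  set I : FractionalIdeal (𝓞 L)⁰ L :=
    (-n).prod (fun w k => (w.asIdeal : FractionalIdeal (𝓞 L)⁰ L) ^ k) with hI
  have hI0 : I ≠ 0 := by
    rw [hI, Finsupp.prod_ne_zero_iff]
    intro w _
    exact zpow_ne_zero _ (coeIdeal_ne_zero.mpr w.ne_bot)
  obtain ⟨a, ha⟩ := hT (Units.mk0 I hI0)
  refine ⟨a, fun w hw => ?_⟩
  rw [log_valuation_eq_neg_count L w a.ne_zero, ha w hw, Units.val_mk0, hI,
    count_finsuppProd L w (-n)]
  simp

/-- Version with "`w` lies over `q`" spelled out and arbitrary larger `T`. -/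
theorem exists_finset_forall_exists_log_valuation_eq' :
    ∃ T₀ : Finset Nat.Primes, ∀ T : Finset Nat.Primes, T₀ ⊆ T →
      ∀ n : HeightOneSpectrum (𝓞 L) →₀ ℤ, ∃ a : Lˣ,
        ∀ (w : HeightOneSpectrum (𝓞 L)) (q : Nat.Primes), (((q : ℕ) : 𝓞 L)) ∈ w.asIdeal → q ∉ T →
          WithZero.log (w.valuation L (a : L)) = n w := by
  obtain ⟨T₀, hT₀⟩ := exists_finset_forall_exists_log_valuation_eq L
  refine ⟨T₀, fun T hT n => ?_⟩
  obtain ⟨a, ha⟩ := hT₀ n
  refine ⟨a, fun w q hq hqT => ha w ?_⟩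
  rw [mem_iff_eq_natPrime.mp hq]
  exact fun h => hqT (hT h)

end Fermat.Agent.CFT.C3.ClassGen
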