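import Mathlib
import Fermat.Agent.Kummer.Counting
import Fermat.Agent.CFT.Herbrand

/-!
# PROJECT C, slice C3b: the Herbrand quotient of a finitely generated module over a cyclic group
of prime order

Let `A` be a finitely generated abelian group and `σ : A →+ A` with `σ ^ p = 1`, `p` prime.
Then the Herbrand quotient `h(A) = [ker (σ-1) : N A] / [ker N : (σ-1) A]` is defined and equals
`p ^ a / p ^ b`, where `a = rank ker (σ - 1)` and `rank A = a + (p - 1) * b`.
-/

set_option autoImplicit false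

noncomputable section

namespace Fermat.Agent.CFT.C3.HerbrandPrime

open Module Polynomial Fermat.Agent.Kummer.Counting Fermat.Agent.CFT.Herbrand

/-! ### A polynomial identity -/

/-- `p ∈ ((X - 1)^(p-1), 1 + X + ⋯ + X^(p-1))` in `ℤ[X]`. -/
theorem exists_C_eq {p : ℕ} (hp : p.Prime) :
    ∃ E G : ℤ[X], (C (p : ℤ) : ℤ[X]) =
      (X - 1) ^ (p - 1) * E + (∑ i ∈ Finset.range p, (X : ℤ[X]) ^ i) * G := by
  obtain ⟨W, hW⟩ := geom_sum_eq_pow_add hp
  -- `W(1) = 1`
  have hp1 : p - 1 ≠ 0 := by have := hp.two_le; omega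
  have hW1 : W.eval 1 = 1 := by
    have h := congrArg (Polynomial.eval (1 : ℤ)) hW
    simp only [eval_finsetSum, eval_pow, eval_X, one_pow, Finset.sum_const, Finset.card_range,
      eval_add, eval_sub, eval_one, sub_self, eval_mul, eval_C, nsmul_eq_mul] at h
    rw [zero_pow hp1, zero_add] at h
    have hp0 : (p : ℤ) ≠ 0 := by exact_mod_cast hp.ne_zero
    exact (mul_left_cancel₀ hp0 h).symm
  obtain ⟨W₁, hW₁⟩ := Polynomial.X_sub_C_dvd_sub_C_eval (a := (1 : ℤ)) (p := W)
  rw [hW1, map_one] at hW₁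
  -- `W = 1 - y` with `y = -(X - 1) W₁`
  set y : ℤ[X] := -((X - 1) * W₁) with hy
  have hWy : W = 1 - y := by rw [hy]; linear_combination hW₁
  -- geometric sum
  have hgeom : W * (∑ j ∈ Finset.range (p - 1), y ^ j) = 1 - y ^ (p - 1) := by
    rw [hWy, mul_comm]
    exact (geom_sum_mul_neg y (p - 1))
  refine ⟨C (p : ℤ) * (-W₁) ^ (p - 1) - ∑ j ∈ Finset.range (p - 1), y ^ j,
    ∑ j ∈ Finset.range (p - 1), y ^ j, ?_⟩
  have hy' : y ^ (p - 1) = (X - 1) ^ (p - 1) * (-W₁) ^ (p - 1) := by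
    rw [hy, ← mul_pow]; congr 1; ring
  rw [hW]
  linear_combination (C (p : ℤ)) * hy' - (C (p : ℤ)) * hgeom

/-! ### The core computation: modules killed by the norm -/

section Core

variable {C : Type*} [AddCommGroup C]

/-- For injective `T`: `[C : T^i C] = [C : T C]^i`. -/
theorem index_range_pow_of_injective (T : C →ₗ[ℤ] C) (hT : Function.Injective T) (i : ℕ) :
    (T ^ i).toAddMonoidHom.range.index = T.toAddMonoidHom.range.index ^ i := by
  induction i with
  | zero =>
    simp only [pow_zero]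
    have : (1 : C →ₗ[ℤ] C).toAddMonoidHom.range = ⊤ := by
      ext x; simp
    rw [this, AddSubgroup.index_top]
  | succ i ih =>
    have h1 : (T ^ (i + 1)).toAddMonoidHom.range
        = (T ^ i).toAddMonoidHom.range.map T.toAddMonoidHom := by
      rw [AddMonoidHom.map_range, pow_succ']
      rfl
    have hker : T.toAddMonoidHom.ker = ⊥ := by
      rw [AddMonoidHom.ker_eq_bot_iff]
      exact hT
    rw [h1, AddSubgroup.index_map, hker, sup_bot_eq, ih, pow_succ]

variable [Module.Finite ℤ C]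

/-- **Core computation.** If `1 + s + ⋯ + s^(p-1) = 0` on a finitely generated abelian group `C`
without `p`-torsion, then `[C : (s - 1) C] ^ (p - 1) = p ^ rank C`. -/
theorem index_range_sub_one_pow {p : ℕ} (hp : p.Prime) (s : C →ₗ[ℤ] C)
    (hν : ∑ i ∈ Finset.range p, s ^ i = 0) (hptf : ∀ x : C, p • x = 0 → x = 0) :
    (s - 1).toAddMonoidHom.range.index ^ (p - 1) = p ^ finrank ℤ C := by
  -- injectivity of `s - 1`
  have hinj : Function.Injective (s - 1 : C →ₗ[ℤ] C) := by
    rw [injective_iff_map_eq_zero]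
    intro x hx
    have hx' : s x = x := by
      rwa [LinearMap.sub_apply, Module.End.one_apply, sub_eq_zero] at hx
    have h1 := geom_sum_apply_of_fixed s p hx'
    rw [hν, LinearMap.zero_apply] at h1
    exact hptf x h1.symm
  -- `(s - 1)^(p-1) C = p C`
  have hrange : ((s - 1) ^ (p - 1)).toAddMonoidHom.range = (nsmulAddMonoidHom p : C →+ C).range := by
    apply le_antisymm
    · obtain ⟨V, W, -, -, -, h2⟩ := end_identities hp s
      rw [hν] at h2
      rintro _ ⟨x, rfl⟩
      refine ⟨-(W x), ?_⟩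
      have h3 := congrArg (fun f : C →ₗ[ℤ] C => f x) h2
      simp only [LinearMap.zero_apply, LinearMap.add_apply, Module.End.mul_apply] at h3
      rw [nsmulAddMonoidHom_apply, smul_neg]
      have h4 : (p : C →ₗ[ℤ] C) (W x) = p • W x := by
        simp [Module.End.natCast_apply]
      rw [h4] at h3
      rw [LinearMap.toAddMonoidHom_coe]
      exact (eq_neg_of_add_eq_zero_left h3.symm).symm
    · obtain ⟨E, G, hEG⟩ := exists_C_eq hp
      have h1 := congrArg (Polynomial.aeval s) hEG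
      simp only [map_add, map_mul, map_pow, map_sub, aeval_X, map_one, map_sum, aeval_C] at h1
      rw [hν, zero_mul, add_zero] at h1
      rintro _ ⟨x, rfl⟩
      refine ⟨(Polynomial.aeval s E) x, ?_⟩
      have h2 := congrArg (fun f : C →ₗ[ℤ] C => f x) h1
      simp only [Module.End.mul_apply] at h2
      rw [LinearMap.toAddMonoidHom_coe, ← h2, nsmulAddMonoidHom_apply]
      simp
  rw [← index_range_pow_of_injective _ hinj, hrange, index_range_nsmul hp]
  have : Nat.card {x : C // p • x = 0} = 1 := by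
    rw [Nat.card_eq_one_iff_unique]
    refine ⟨⟨fun a b => Subtype.ext ?_⟩, ⟨⟨0, smul_zero _⟩⟩⟩
    rw [hptf a.1 a.2, hptf b.1 b.2]
  rw [this, mul_one]

/-- Consequence: `[C : (s - 1) C] = p ^ b` with `(p - 1) * b = rank C`. -/
theorem exists_index_range_sub_one {p : ℕ} (hp : p.Prime) (s : C →ₗ[ℤ] C)
    (hν : ∑ i ∈ Finset.range p, s ^ i = 0) (hptf : ∀ x : C, p • x = 0 → x = 0) :
    ∃ b : ℕ, (s - 1).toAddMonoidHom.range.index = p ^ b ∧ (p - 1) * b = finrank ℤ C := by
  have h := index_range_sub_one_pow hp s hν hptf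
  have hp1 : p - 1 ≠ 0 := by have := hp.two_le; omega
  have hdvd : (s - 1).toAddMonoidHom.range.index ∣ p ^ finrank ℤ C := by
    rw [← h]
    exact dvd_pow_self _ hp1
  obtain ⟨b, -, hb⟩ := (Nat.dvd_prime_pow hp).mp hdvd
  refine ⟨b, hb, ?_⟩
  rw [hb, ← pow_mul] at h
  have := Nat.pow_right_injective hp.two_le h
  rw [mul_comm]
  exact this

end Core

/-! ### The case without `p`-torsion -/

section NoPTorsion

variable {A : Type*} [AddCommGroup A]

/-- the `ℤ`-linear map underlying `σ` -/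
abbrev lin (σ : A →+ A) : A →ₗ[ℤ] A := σ.toIntLinearMap

theorem lin_pow_apply (σ : A →+ A) (i : ℕ) (a : A) : ((lin σ) ^ i) a = σ^[i] a := by
  rw [Module.End.pow_apply]
  rfl

theorem geom_sum_lin_apply (σ : A →+ A) (p : ℕ) (a : A) :
    (∑ i ∈ Finset.range p, (lin σ) ^ i) a = nrm σ p a := by
  rw [LinearMap.sum_apply, nrm_apply]
  exact Finset.sum_congr rfl fun i _ => lin_pow_apply σ i a

/-- The fixed submodule `ker (σ - 1)`. -/
abbrev fixedSub (σ : A →+ A) : Submodule ℤ A := LinearMap.ker (lin σ - 1)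

theorem mem_fixedSub {σ : A →+ A} {a : A} : a ∈ fixedSub σ ↔ σ a = a := by
  rw [LinearMap.mem_ker, LinearMap.sub_apply, Module.End.one_apply, sub_eq_zero]
  rfl

theorem iterate_of_mem_fixedSub {σ : A →+ A} {a : A} (ha : a ∈ fixedSub σ) (i : ℕ) :
    σ^[i] a = a :=
  Function.iterate_fixed (mem_fixedSub.mp ha) i

theorem nrm_of_mem_fixedSub {σ : A →+ A} {a : A} (ha : a ∈ fixedSub σ) (p : ℕ) :
    nrm σ p a = p • a := by
  rw [nrm_apply]
  simp [iterate_of_mem_fixedSub ha]

theorem nrm_mem_fixedSub {σ : A →+ A} {p : ℕ} (hσ : ∀ a, σ^[p] a = a) (a : A) :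
    nrm σ p a ∈ fixedSub σ := by
  rw [mem_fixedSub]
  have := delta_nrm_eq_zero σ p hσ a
  rwa [delta_apply, sub_eq_zero] at this

theorem fixedSub_le_comap (σ : A →+ A) : fixedSub σ ≤ (fixedSub σ).comap (lin σ) := by
  intro a ha
  rw [Submodule.mem_comap, mem_fixedSub]
  have h : σ a = a := mem_fixedSub.mp ha
  change σ (σ a) = σ a
  rw [h, h]

/-- the induced endomorphism of `A ⧸ ker (σ - 1)` -/
abbrev quotLin (σ : A →+ A) : (A ⧸ fixedSub σ) →ₗ[ℤ] (A ⧸ fixedSub σ) :=
  (fixedSub σ).mapQ (fixedSub σ) (lin σ) (fixedSub_le_comap σ)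

theorem geom_sum_quotLin {σ : A →+ A} {p : ℕ} (hσ : ∀ a, σ^[p] a = a) :
    ∑ i ∈ Finset.range p, (quotLin σ) ^ i = 0 := by
  apply LinearMap.ext
  intro x
  obtain ⟨a, rfl⟩ := Submodule.Quotient.mk_surjective _ x
  have hpow : ∀ i : ℕ, ((quotLin σ) ^ i) (Submodule.Quotient.mk a)
      = Submodule.Quotient.mk (((lin σ) ^ i) a) := by
    intro i
    induction i with
    | zero => simp
    | succ i ih =>
      rw [pow_succ', Module.End.mul_apply, ih, pow_succ', Module.End.mul_apply]
      rfl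
  rw [LinearMap.sum_apply, LinearMap.zero_apply]
  simp only [hpow]
  have hsum : ∑ i ∈ Finset.range p, (Submodule.Quotient.mk (((lin σ) ^ i) a) : A ⧸ fixedSub σ)
      = (fixedSub σ).mkQ (∑ i ∈ Finset.range p, ((lin σ) ^ i) a) := by
    rw [map_sum]
    rfl
  rw [hsum, Submodule.mkQ_apply, Submodule.Quotient.mk_eq_zero,
    ← LinearMap.sum_apply, geom_sum_lin_apply]
  exact nrm_mem_fixedSub hσ a

theorem quot_no_p_torsion {σ : A →+ A} {p : ℕ} (hptf : ∀ x : A, p • x = 0 → x = 0)
    (x : A ⧸ fixedSub σ) (hx : p • x = 0) : x = 0 := by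
  obtain ⟨a, rfl⟩ := Submodule.Quotient.mk_surjective _ x
  rw [← Submodule.Quotient.mk_smul, Submodule.Quotient.mk_eq_zero, mem_fixedSub, map_nsmul] at hx
  rw [Submodule.Quotient.mk_eq_zero, mem_fixedSub]
  have : p • (σ a - a) = 0 := by rw [smul_sub, hx, sub_self]
  exact sub_eq_zero.mp (hptf _ this)

variable [Module.Finite ℤ A]

/-- **Herbrand quotient, no `p`-torsion.** -/
theorem herbrand_of_no_p_torsion {p : ℕ} (hp : p.Prime) (σ : A →+ A) (hσ : ∀ a, σ^[p] a = a)
    (hptf : ∀ x : A, p • x = 0 → x = 0) :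
    ∃ b : ℕ, finrank ℤ A = finrank ℤ (fixedSub σ) + (p - 1) * b ∧
      IsDefined (delta σ) (nrm σ p) ∧
      herbrand (delta σ) (nrm σ p) = (p : ℚ) ^ finrank ℤ (fixedSub σ) / (p : ℚ) ^ b := by
  set B := fixedSub σ with hB
  -- the quotient computation
  obtain ⟨b, hb1, hb2⟩ := exists_index_range_sub_one hp (quotLin σ) (geom_sum_quotLin hσ)
    (quot_no_p_torsion hptf)
  refine ⟨b, ?_, ?_⟩
  · rw [hb2, add_comm]
    exact (Submodule.finrank_quotient_add_finrank B).symm
  -- the short exact sequence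
  have hS : IsSES B.subtype.toAddMonoidHom B.mkQ.toAddMonoidHom
      (0 : B →+ B) (nsmulAddMonoidHom p) (delta σ) (nrm σ p)
      ((quotLin σ - 1).toAddMonoidHom) (0 : (A ⧸ B) →+ (A ⧸ B)) :=
    { inj := B.subtype_injective
      surj := B.mkQ_surjective
      exact := by
        ext x
        simp only [AddMonoidHom.mem_range, LinearMap.toAddMonoidHom_coe, Submodule.subtype_apply,
          AddMonoidHom.mem_ker, Submodule.mkQ_apply, Submodule.Quotient.mk_eq_zero]
        constructor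
        · rintro ⟨y, rfl⟩
          exact y.2
        · intro hx
          exact ⟨⟨x, hx⟩, rfl⟩
      fg := delta_nrm_eq_zero σ p hσ
      gf := nrm_delta_eq_zero σ p hσ
      f_φ := fun a => by
        simp only [AddMonoidHom.zero_apply, map_zero, LinearMap.toAddMonoidHom_coe,
          Submodule.subtype_apply, delta_apply]
        rw [mem_fixedSub.mp a.2, sub_self]
      g_φ := fun a => by
        simp only [nsmulAddMonoidHom_apply, LinearMap.toAddMonoidHom_coe, Submodule.subtype_apply,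
          Submodule.coe_smul_of_tower]
        exact (nrm_of_mem_fixedSub a.2 p).symm
      f_ψ := fun a => by
        simp only [LinearMap.toAddMonoidHom_coe, Submodule.mkQ_apply, delta_apply,
          LinearMap.sub_apply, Module.End.one_apply, Submodule.Quotient.mk_sub]
        rfl
      g_ψ := fun a => by
        simp only [LinearMap.toAddMonoidHom_coe, Submodule.mkQ_apply, AddMonoidHom.zero_apply,
          Submodule.Quotient.mk_eq_zero]
        exact nrm_mem_fixedSub hσ a }
  -- the sub: trivial action on `B`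
  have hBtf : ∀ x : B, p • x = 0 → x = 0 := fun x hx =>
    Subtype.ext (hptf x.1 (by simpa using congrArg Subtype.val hx))
  have h1a : idx (0 : B →+ B) (nsmulAddMonoidHom p) = p ^ finrank ℤ B := by
    rw [idx_zero_left, index_range_nsmul hp]
    have : Nat.card {x : B // p • x = 0} = 1 := by
      rw [Nat.card_eq_one_iff_unique]
      refine ⟨⟨fun a b => Subtype.ext ?_⟩, ⟨⟨0, smul_zero _⟩⟩⟩
      rw [hBtf a.1 a.2, hBtf b.1 b.2]
    rw [this, mul_one]
  have h1b : idx (nsmulAddMonoidHom p) (0 : B →+ B) = 1 := by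
    rw [idx_zero_right, Nat.card_eq_one_iff_unique]
    refine ⟨⟨fun a b => Subtype.ext ?_⟩, ⟨⟨0, map_zero _⟩⟩⟩
    have ha : p • a.1 = 0 := a.2
    have hb : p • b.1 = 0 := b.2
    rw [hBtf a.1 ha, hBtf b.1 hb]
  -- the quotient
  have hinjQ : Function.Injective (quotLin σ - 1 : (A ⧸ B) →ₗ[ℤ] (A ⧸ B)) := by
    rw [injective_iff_map_eq_zero]
    intro x hx
    have hx' : quotLin σ x = x := by
      rwa [LinearMap.sub_apply, Module.End.one_apply, sub_eq_zero] at hx
    have h1 := geom_sum_apply_of_fixed (quotLin σ) p hx'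
    rw [geom_sum_quotLin hσ, LinearMap.zero_apply] at h1
    exact quot_no_p_torsion hptf x h1.symm
  have h2a : idx ((quotLin σ - 1).toAddMonoidHom) (0 : (A ⧸ B) →+ (A ⧸ B)) = 1 := by
    rw [idx_zero_right, Nat.card_eq_one_iff_unique]
    refine ⟨⟨fun a b => Subtype.ext ?_⟩, ⟨⟨0, map_zero _⟩⟩⟩
    have ha : (quotLin σ - 1) a.1 = 0 := a.2
    have hb : (quotLin σ - 1) b.1 = 0 := b.2
    exact hinjQ (ha.trans hb.symm)
  have h2b : idx (0 : (A ⧸ B) →+ (A ⧸ B)) ((quotLin σ - 1).toAddMonoidHom) = p ^ b := by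
    rw [idx_zero_left, hb1]
  have hp0 : p ≠ 0 := hp.ne_zero
  have hd1 : IsDefined (0 : B →+ B) (nsmulAddMonoidHom p) :=
    ⟨by rw [h1a]; exact pow_ne_zero _ hp0, by rw [h1b]; exact one_ne_zero⟩
  have hd2 : IsDefined ((quotLin σ - 1).toAddMonoidHom) (0 : (A ⧸ B) →+ (A ⧸ B)) :=
    ⟨by rw [h2a]; exact one_ne_zero, by rw [h2b]; exact pow_ne_zero _ hp0⟩
  obtain ⟨hd, hh⟩ := hS.isDefined_mid hd1 hd2
  refine ⟨hd, ?_⟩
  rw [hh, herbrand, herbrand, h1a, h1b, h2a, h2b]
  push_cast
  ring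

end NoPTorsion

/-! ### The general case: dividing out the torsion -/

section General

variable {A : Type*} [AddCommGroup A]

theorem torsion_le_comap (σ : A →+ A) :
    Submodule.torsion ℤ A ≤ (Submodule.torsion ℤ A).comap (lin σ) := by
  intro a ha
  rw [Submodule.mem_comap, Submodule.mem_torsion_iff] at *
  obtain ⟨n, hn⟩ := ha
  refine ⟨n, ?_⟩
  rw [Submonoid.smul_def] at hn ⊢
  change (n : ℤ) • σ a = 0
  rw [← map_zsmul σ, hn, map_zero]

/-- the endomorphism induced on `A ⧸ torsion` -/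
abbrev barLin (σ : A →+ A) : (A ⧸ Submodule.torsion ℤ A) →ₗ[ℤ] (A ⧸ Submodule.torsion ℤ A) :=
  (Submodule.torsion ℤ A).mapQ (Submodule.torsion ℤ A) (lin σ) (torsion_le_comap σ)

/-- the endomorphism induced on `A ⧸ torsion`, as an additive map -/
abbrev bar (σ : A →+ A) : (A ⧸ Submodule.torsion ℤ A) →+ (A ⧸ Submodule.torsion ℤ A) :=
  (barLin σ).toAddMonoidHom

theorem bar_mk (σ : A →+ A) (a : A) :
    bar σ (Submodule.Quotient.mk a) = Submodule.Quotient.mk (σ a) := rfl

theorem bar_iterate_mk (σ : A →+ A) (i : ℕ) (a : A) :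
    (bar σ)^[i] (Submodule.Quotient.mk a) = Submodule.Quotient.mk (σ^[i] a) := by
  induction i generalizing a with
  | zero => rfl
  | succ i ih => rw [Function.iterate_succ_apply, bar_mk, ih, Function.iterate_succ_apply]

theorem bar_iterate {σ : A →+ A} {p : ℕ} (hσ : ∀ a, σ^[p] a = a)
    (x : A ⧸ Submodule.torsion ℤ A) : (bar σ)^[p] x = x := by
  obtain ⟨a, rfl⟩ := Submodule.Quotient.mk_surjective _ x
  rw [bar_iterate_mk, hσ]

theorem delta_bar_mk (σ : A →+ A) (a : A) :
    delta (bar σ) (Submodule.Quotient.mk a) = Submodule.Quotient.mk (delta σ a) := by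
  rw [delta_apply, delta_apply, bar_mk, Submodule.Quotient.mk_sub]

theorem nrm_bar_mk (σ : A →+ A) (p : ℕ) (a : A) :
    nrm (bar σ) p (Submodule.Quotient.mk a) = Submodule.Quotient.mk (nrm σ p a) := by
  rw [nrm_apply, nrm_apply]
  simp only [bar_iterate_mk]
  have : (Submodule.Quotient.mk (∑ i ∈ Finset.range p, σ^[i] a) : A ⧸ Submodule.torsion ℤ A)
      = (Submodule.torsion ℤ A).mkQ (∑ i ∈ Finset.range p, σ^[i] a) := rfl
  rw [this, map_sum]
  rfl

theorem bar_no_torsion (n : ℕ) (hn : n ≠ 0) (x : A ⧸ Submodule.torsion ℤ A) (hx : n • x = 0) :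
    x = 0 := by
  obtain ⟨a, rfl⟩ := Submodule.Quotient.mk_surjective _ x
  rw [← Submodule.Quotient.mk_smul, Submodule.Quotient.mk_eq_zero, Submodule.mem_torsion_iff] at hx
  rw [Submodule.Quotient.mk_eq_zero, Submodule.mem_torsion_iff]
  obtain ⟨m, hm⟩ := hx
  refine ⟨⟨(m : ℤ) * n, mem_nonZeroDivisors_of_ne_zero
    (mul_ne_zero (nonZeroDivisors.ne_zero m.2) (by exact_mod_cast hn))⟩, ?_⟩
  change ((m : ℤ) * n) • a = 0
  rw [mul_smul]
  have : (m : ℤ) • (n • a) = 0 := hm
  rwa [natCast_zsmul]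

variable [Module.Finite ℤ A]

/-- passing to `A ⧸ torsion` does not change the rank of the fixed submodule -/
theorem finrank_fixedSub_bar (σ : A →+ A) :
    finrank ℤ (fixedSub (bar σ)) = finrank ℤ (fixedSub σ) := by
  set T := Submodule.torsion ℤ A with hT
  -- the restriction of the quotient map
  let φ : fixedSub σ →ₗ[ℤ] fixedSub (bar σ) :=
    (T.mkQ.comp (fixedSub σ).subtype).codRestrict (fixedSub (bar σ)) (fun x => by
      rw [mem_fixedSub]
      change bar σ (Submodule.Quotient.mk x.1) = Submodule.Quotient.mk x.1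
      rw [bar_mk, mem_fixedSub.mp x.2])
  have hker : finrank ℤ (LinearMap.ker φ) = 0 := by
    rw [Module.finrank_eq_zero_iff_isTorsion]
    intro x
    have hx : φ x.1 = 0 := x.2
    have hx' : (Submodule.Quotient.mk (x.1 : A) : A ⧸ T) = 0 := congrArg Subtype.val hx
    rw [Submodule.Quotient.mk_eq_zero, Submodule.mem_torsion_iff] at hx'
    obtain ⟨n, hn⟩ := hx'
    refine ⟨n, ?_⟩
    apply Subtype.ext
    apply Subtype.ext
    exact hn
  have hcoker : finrank ℤ (fixedSub (bar σ) ⧸ LinearMap.range φ) = 0 := by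
    rw [Module.finrank_eq_zero_iff_isTorsion]
    intro y
    obtain ⟨⟨x, hx⟩, rfl⟩ := Submodule.Quotient.mk_surjective _ y
    obtain ⟨a, rfl⟩ := Submodule.Quotient.mk_surjective _ x
    have ha : bar σ (Submodule.Quotient.mk a) = Submodule.Quotient.mk a := mem_fixedSub.mp hx
    rw [bar_mk, ← sub_eq_zero, ← Submodule.Quotient.mk_sub, Submodule.Quotient.mk_eq_zero,
      Submodule.mem_torsion_iff] at ha
    obtain ⟨n, hn⟩ := ha
    refine ⟨n, ?_⟩
    have hna : (n : ℤ) • a ∈ fixedSub σ := by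
      rw [mem_fixedSub, map_zsmul, ← sub_eq_zero, ← smul_sub]
      exact hn
    change (n : ℤ) • (Submodule.Quotient.mk _ : fixedSub (bar σ) ⧸ LinearMap.range φ) = 0
    rw [← Submodule.Quotient.mk_smul, Submodule.Quotient.mk_eq_zero]
    refine ⟨⟨(n : ℤ) • a, hna⟩, ?_⟩
    apply Subtype.ext
    rfl
  have h1 := finrank_range_add_finrank_ker' φ
  have h2 := Submodule.finrank_quotient_add_finrank (LinearMap.range φ)
  omega

/-- **Herbrand quotient of a finitely generated module over a cyclic group of prime order.**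
If `σ ^ p = 1` on the finitely generated abelian group `A`, then with
`a = rank (ker (σ - 1))` and `rank A = a + (p - 1) b`: `h(A) = p ^ a / p ^ b`. -/
theorem herbrand_prime {p : ℕ} (hp : p.Prime) (σ : A →+ A) (hσ : ∀ a, σ^[p] a = a) :
    ∃ b : ℕ, finrank ℤ A = finrank ℤ (fixedSub σ) + (p - 1) * b ∧
      IsDefined (delta σ) (nrm σ p) ∧
      herbrand (delta σ) (nrm σ p) = (p : ℚ) ^ finrank ℤ (fixedSub σ) / (p : ℚ) ^ b := by
  obtain ⟨b, hb1, hb2, hb3⟩ := herbrand_of_no_p_torsion hp (bar σ) (bar_iterate hσ)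
    (bar_no_torsion p hp.ne_zero)
  rw [finrank_fixedSub_bar, finrank_quot_tors] at hb1
  rw [finrank_fixedSub_bar] at hb3
  set T := Submodule.torsion ℤ A with hT
  have hfin : Finite (T.mkQ.toAddMonoidHom).ker := by
    have : (T.mkQ.toAddMonoidHom).ker = tors A := by
      ext x
      simp only [AddMonoidHom.mem_ker, LinearMap.toAddMonoidHom_coe, Submodule.mkQ_apply,
        Submodule.Quotient.mk_eq_zero]
      rfl
    rw [this]
    infer_instance
  have hcoker : (T.mkQ.toAddMonoidHom).range.index ≠ 0 := by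
    rw [AddMonoidHom.range_eq_top.mpr T.mkQ_surjective, AddSubgroup.index_top]
    exact one_ne_zero
  have e1 := isDefined_iff_of_finite_ker_coker T.mkQ.toAddMonoidHom (delta σ) (nrm σ p)
    (delta (bar σ)) (nrm (bar σ) p) (delta_nrm_eq_zero σ p hσ) (nrm_delta_eq_zero σ p hσ)
    (delta_nrm_eq_zero _ p (bar_iterate hσ)) (nrm_delta_eq_zero _ p (bar_iterate hσ))
    (fun a => (delta_bar_mk σ a).symm) (fun a => (nrm_bar_mk σ p a).symm) hcoker
  have e2 := herbrand_eq_of_finite_ker_coker T.mkQ.toAddMonoidHom (delta σ) (nrm σ p)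
    (delta (bar σ)) (nrm (bar σ) p) (delta_nrm_eq_zero σ p hσ) (nrm_delta_eq_zero σ p hσ)
    (delta_nrm_eq_zero _ p (bar_iterate hσ)) (nrm_delta_eq_zero _ p (bar_iterate hσ))
    (fun a => (delta_bar_mk σ a).symm) (fun a => (nrm_bar_mk σ p a).symm) hcoker
  exact ⟨b, hb1, e1.mpr hb2, e2.trans hb3⟩

end General

end Fermat.Agent.CFT.C3.HerbrandPrime
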