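import Mathlib

/-!
# PROJECT C, slice C3a: Dirichlet's `S`-unit theorem (rank form)

For a number field `K` and a finite set `T` of finite places, the group of `T`-units
`(T : Set _).unit K` (Mathlib's `Set.unit`) is finitely generated of rank
`NumberField.Units.rank K + T.card`.

Proof: the valuation vector `valT : T-units → ℤ^T` has kernel `(𝓞 K)ˣ` and its image contains
`h • ℤ^T`, `h` the class number.
-/

set_option autoImplicit false

noncomputable section

namespace Fermat.Agent.CFT.C3.SUnitRank

open NumberField IsDedekindDomain WithZero Module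
open scoped nonZeroDivisors

variable (K : Type*) [Field K] [NumberField K]
variable (T : Finset (HeightOneSpectrum (𝓞 K)))

/-- The group of `T`-units of `K`. -/
abbrev TUnits : Subgroup Kˣ := (T : Set (HeightOneSpectrum (𝓞 K))).unit K

variable {K} in
theorem valuation_units_ne_zero (v : HeightOneSpectrum (𝓞 K)) (x : Kˣ) :
    v.valuation K (x : K) ≠ 0 :=
  (Valuation.ne_zero_iff _).mpr x.ne_zero

/-- The valuation vector of a `T`-unit, as an additive map. -/
def valTAdd : Additive (TUnits K T) →+ (T → ℤ) where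
  toFun x := fun v => log (v.1.valuation K (((Additive.toMul x : TUnits K T) : Kˣ) : K))
  map_zero' := by
    funext v
    simp
  map_add' x y := by
    funext v
    simp only [toMul_add, Subgroup.coe_mul, Units.val_mul, map_mul, Pi.add_apply]
    exact log_mul (valuation_units_ne_zero _ _) (valuation_units_ne_zero _ _)

/-- The valuation vector of a `T`-unit, as a `ℤ`-linear map. -/
def valT : Additive (TUnits K T) →ₗ[ℤ] (T → ℤ) := (valTAdd K T).toIntLinearMap

theorem valT_apply (x : Additive (TUnits K T)) (v : T) :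
    valT K T x v = log (v.1.valuation K (((Additive.toMul x : TUnits K T) : Kˣ) : K)) := rfl

/-! ### The units of `𝓞 K` inside the `T`-units -/

variable {K} in
theorem valuation_unit_eq_one (v : HeightOneSpectrum (𝓞 K)) (u : (𝓞 K)ˣ) :
    v.valuation K (algebraMap (𝓞 K) K (u : 𝓞 K)) = 1 := by
  have h1 : v.valuation K (algebraMap (𝓞 K) K (u : 𝓞 K)) ≤ 1 := v.valuation_le_one _
  have h2 : v.valuation K (algebraMap (𝓞 K) K ((u⁻¹ : (𝓞 K)ˣ) : 𝓞 K)) ≤ 1 := v.valuation_le_one _
  have h3 : v.valuation K (algebraMap (𝓞 K) K (u : 𝓞 K)) *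
      v.valuation K (algebraMap (𝓞 K) K ((u⁻¹ : (𝓞 K)ˣ) : 𝓞 K)) = 1 := by
    rw [← map_mul, ← map_mul, ← Units.val_mul, mul_inv_cancel, Units.val_one, map_one, map_one]
  exact eq_one_of_one_le_mul_left h1 h2 h3.ge

/-- The inclusion `(𝓞 K)ˣ → T-units`. -/
def unitsToT : (𝓞 K)ˣ →* TUnits K T where
  toFun u := ⟨Units.map (algebraMap (𝓞 K) K : 𝓞 K →* K) u, fun v _ => valuation_unit_eq_one v u⟩
  map_one' := by
    apply Subtype.ext
    simp
  map_mul' x y := by
    apply Subtype.ext
    simp

theorem unitsToT_coe (u : (𝓞 K)ˣ) :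
    (((unitsToT K T u : TUnits K T) : Kˣ) : K) = algebraMap (𝓞 K) K (u : 𝓞 K) := rfl

theorem unitsToT_injective : Function.Injective (unitsToT K T) := by
  intro x y h
  have h' := congrArg (fun z : TUnits K T => ((z : Kˣ) : K)) h
  simp only [unitsToT_coe] at h'
  exact Units.ext (RingOfIntegers.coe_injective h')

/-- An element of `Kˣ` all of whose valuations are `1` is a unit of `𝓞 K`. -/
theorem exists_unit_of_valuation_eq_one (x : Kˣ)
    (h : ∀ v : HeightOneSpectrum (𝓞 K), v.valuation K (x : K) = 1) :
    ∃ u : (𝓞 K)ˣ, algebraMap (𝓞 K) K (u : 𝓞 K) = (x : K) := by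
  obtain ⟨a, ha⟩ := HeightOneSpectrum.mem_integers_of_valuation_le_one K (x : K)
    (fun v => (h v).le)
  obtain ⟨b, hb⟩ := HeightOneSpectrum.mem_integers_of_valuation_le_one K ((x⁻¹ : Kˣ) : K)
    (fun v => by rw [Units.val_inv_eq_inv_val, map_inv₀, h v, inv_one])
  have hab : a * b = 1 := by
    apply RingOfIntegers.coe_injective
    rw [map_mul]
    rw [ha, hb]
    simp
  exact ⟨⟨a, b, hab, by rw [mul_comm]; exact hab⟩, ha⟩

theorem ker_valT_eq :
    (LinearMap.ker (valT K T) : Set (Additive (TUnits K T))) =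
      Set.range (fun u : Additive (𝓞 K)ˣ => Additive.ofMul (unitsToT K T (Additive.toMul u))) := by
  ext x
  constructor
  · intro hx
    have hx' : ∀ v : T, log (v.1.valuation K (((Additive.toMul x : TUnits K T) : Kˣ) : K)) = 0 :=
      fun v => congrFun (LinearMap.mem_ker.mp hx) v
    have hall : ∀ v : HeightOneSpectrum (𝓞 K),
        v.valuation K (((Additive.toMul x : TUnits K T) : Kˣ) : K) = 1 := by
      intro v
      by_cases hv : v ∈ T
      · have := hx' ⟨v, hv⟩
        rw [← exp_log (valuation_units_ne_zero v _), this, exp_zero]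
      · exact (Additive.toMul x : TUnits K T).2 v (by simpa using hv)
    obtain ⟨u, hu⟩ := exists_unit_of_valuation_eq_one K _ hall
    refine ⟨Additive.ofMul u, ?_⟩
    apply Additive.toMul.injective
    apply Subtype.ext
    apply Units.ext
    simp only [toMul_ofMul]
    exact hu
  · rintro ⟨u, rfl⟩
    apply LinearMap.mem_ker.mpr
    funext v
    rw [valT_apply]
    simp only [toMul_ofMul, unitsToT_coe, valuation_unit_eq_one, log_one, Pi.zero_apply]

/-! ### `T`-units with prescribed valuation vector -/

variable {K} in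
/-- Two height one primes, one dividing a power of the other, are equal. -/
theorem eq_of_dvd_pow {v w : HeightOneSpectrum (𝓞 K)} {n : ℕ} (h : w.asIdeal ∣ v.asIdeal ^ n) :
    w = v := by
  have h1 : w.asIdeal ∣ v.asIdeal := w.prime.dvd_of_dvd_pow h
  have h2 : v.asIdeal ≤ w.asIdeal := Ideal.le_of_dvd h1
  have hmax : v.asIdeal.IsMaximal := v.isMaximal
  exact HeightOneSpectrum.ext (hmax.eq_of_le w.isPrime.ne_top h2).symm

open scoped Classical in
/-- For `v ∈ T` there is a `T`-unit whose valuation vector is `-h • e_v`, `h` the class number. -/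
theorem exists_valT_eq_single (v : T) :
    ∃ x : Additive (TUnits K T),
      valT K T x = (-(classNumber K : ℤ)) • (Pi.single v 1 : T → ℤ) := by
  set h := classNumber K with hh
  have hI0 : v.1.asIdeal ≠ 0 := v.1.ne_bot
  have hmem : v.1.asIdeal ∈ (Ideal (𝓞 K))⁰ := mem_nonZeroDivisors_of_ne_zero hI0
  have hprinc : (v.1.asIdeal ^ h).IsPrincipal := by
    rw [← ClassGroup.mk0_eq_one_iff (pow_mem hmem h)]
    have : ClassGroup.mk0 ⟨v.1.asIdeal, hmem⟩ ^ h = 1 := by
      rw [hh, classNumber]
      exact pow_card_eq_one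
    rw [← this, ← map_pow]
    rfl
  obtain ⟨π, hπ⟩ := hprinc
  have hπ' : v.1.asIdeal ^ h = Ideal.span {π} := by
    rw [hπ]
  have hπ0 : π ≠ 0 := by
    rintro rfl
    rw [Ideal.span_singleton_eq_bot.mpr rfl] at hπ'
    exact pow_ne_zero h hI0 hπ'
  have hval : ∀ w : HeightOneSpectrum (𝓞 K), w.valuation K (algebraMap (𝓞 K) K π) =
      if w = v.1 then exp (-(h : ℤ)) else 1 := by
    intro w
    rw [HeightOneSpectrum.valuation_of_algebraMap,
      HeightOneSpectrum.intValuation_eq_exp_neg_multiplicity _ hπ0, ← hπ']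
    split_ifs with hw
    · rw [hw, multiplicity_pow_self_of_prime v.1.prime]
    · have : multiplicity w.asIdeal (v.1.asIdeal ^ h) = 0 :=
        multiplicity_eq_zero.mpr fun hdvd => hw (eq_of_dvd_pow hdvd)
      rw [this]
      simp
  have hK0 : algebraMap (𝓞 K) K π ≠ 0 := by
    rw [Ne, map_eq_zero_iff _ (RingOfIntegers.coe_injective)]
    exact hπ0
  refine ⟨Additive.ofMul ⟨Units.mk0 _ hK0, fun w hw => ?_⟩, ?_⟩
  · rw [Units.val_mk0, hval w, if_neg]
    rintro rfl
    exact hw (by simp)
  · funext w
    rw [valT_apply]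
    simp only [toMul_ofMul, Units.val_mk0, hval, Pi.smul_apply, smul_eq_mul]
    by_cases hw : w = v
    · subst hw
      simp
    · have : (w : HeightOneSpectrum (𝓞 K)) ≠ v.1 := fun h' => hw (Subtype.ext h')
      rw [if_neg this, Pi.single_eq_of_ne hw]
      simp

/-! ### Finite generation and rank -/

/-- `(𝓞 K)ˣ → T-units` as a `ℤ`-linear map of additive groups. -/
def unitsLin : Additive (𝓞 K)ˣ →ₗ[ℤ] Additive (TUnits K T) :=
  (MonoidHom.toAdditive (unitsToT K T)).toIntLinearMap

theorem unitsLin_apply (u : Additive (𝓞 K)ˣ) :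
    unitsLin K T u = Additive.ofMul (unitsToT K T (Additive.toMul u)) := rfl

theorem unitsLin_injective : Function.Injective (unitsLin K T) := by
  intro x y h
  have : unitsToT K T (Additive.toMul x) = unitsToT K T (Additive.toMul y) :=
    Additive.ofMul.injective h
  exact Additive.toMul.injective (unitsToT_injective K T this)

theorem range_unitsLin : LinearMap.range (unitsLin K T) = LinearMap.ker (valT K T) := by
  apply SetLike.coe_injective
  rw [ker_valT_eq]
  rfl

/-- The kernel of the valuation vector is `(𝓞 K)ˣ`. -/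
def kerEquiv : Additive (𝓞 K)ˣ ≃ₗ[ℤ] LinearMap.ker (valT K T) :=
  (LinearEquiv.ofInjective (unitsLin K T) (unitsLin_injective K T)).trans
    (LinearEquiv.ofEq _ _ (range_unitsLin K T))

instance finite_ker : Module.Finite ℤ (LinearMap.ker (valT K T)) :=
  Module.Finite.equiv (kerEquiv K T)

instance finite_quot : Module.Finite ℤ (Additive (TUnits K T) ⧸ LinearMap.ker (valT K T)) :=
  Module.Finite.equiv (valT K T).quotKerEquivRange.symm

/-- **`T`-units are finitely generated** (as a `ℤ`-module). -/
instance finite_TUnits : Module.Finite ℤ (Additive (TUnits K T)) :=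
  Module.Finite.of_submodule_quotient (LinearMap.ker (valT K T))

/-- **`T`-units are finitely generated** (as a group). -/
theorem fg_TUnits : Group.FG (TUnits K T) := by
  rw [Group.fg_iff_monoid_fg, Monoid.fg_iff_add_fg, ← AddGroup.fg_iff_addMonoid_fg,
    ← Module.Finite.iff_addGroup_fg]
  infer_instance

theorem smul_mem_range_valT (y : T → ℤ) :
    ((classNumber K : ℤ)) • y ∈ LinearMap.range (valT K T) := by
  classical
  have hy : y = ∑ v : T, (y v) • (Pi.single v 1 : T → ℤ) := by
    funext w
    simp [Finset.sum_apply, Pi.single_apply]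
  rw [hy, Finset.smul_sum]
  refine Submodule.sum_mem _ fun v _ => ?_
  obtain ⟨x, hx⟩ := exists_valT_eq_single K T v
  refine ⟨(-(y v)) • x, ?_⟩
  rw [map_smul, hx]
  simp only [smul_smul]
  congr 1
  ring

theorem finrank_range_valT : finrank ℤ (LinearMap.range (valT K T)) = T.card := by
  have h0 : finrank ℤ ((T → ℤ) ⧸ LinearMap.range (valT K T)) = 0 := by
    apply Module.finrank_eq_zero_of_rank_eq_zero
    rw [rank_eq_zero_iff]
    intro x
    obtain ⟨y, rfl⟩ := Submodule.Quotient.mk_surjective _ x
    refine ⟨(classNumber K : ℤ), by exact_mod_cast classNumber_ne_zero K, ?_⟩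
    rw [← Submodule.Quotient.mk_smul, Submodule.Quotient.mk_eq_zero]
    exact smul_mem_range_valT K T y
  have h1 := Submodule.finrank_quotient_add_finrank (LinearMap.range (valT K T))
  rw [h0, zero_add] at h1
  rw [h1]
  simp

/-- **Dirichlet's `S`-unit theorem**, rank form. -/
theorem finrank_TUnits :
    finrank ℤ (Additive (TUnits K T)) = NumberField.Units.rank K + T.card := by
  rw [← Submodule.finrank_quotient_add_finrank (LinearMap.ker (valT K T)),
    (valT K T).quotKerEquivRange.finrank_eq, finrank_range_valT,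
    ← (kerEquiv K T).finrank_eq, NumberField.Units.finrank_eq, add_comm]

end Fermat.Agent.CFT.C3.SUnitRank
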