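import Mathlib
import Fermat.Agent.CFT.C3.SUnitRank
import Fermat.Agent.CFT.C3.HerbrandPrime
import Fermat.Agent.CFT.C3.GaloisVal

/-!
# PROJECT C, slice C3c: the Herbrand quotient of the `T`-units of a cyclic extension of prime degree

`L/K` Galois of prime degree `p`, unramified at infinity, `σ` a generator of `Gal(L/K)`,
`T` a finite set of primes of `K`, `T_L` the set of primes of `L` above `T`. Then
`h(⟨σ⟩, 𝓞_{L,T_L}ˣ) = p ^ u / p`, `u` the number of `v ∈ T` with exactly one prime of `L` above `v`.
-/

set_option autoImplicit false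
set_option linter.unusedSectionVars false

noncomputable section

namespace Fermat.Agent.CFT.C3.SUnitHerbrand

open NumberField IsDedekindDomain WithZero Module
open Fermat.Agent.CFT.C3.SUnitRank Fermat.Agent.CFT.C3.GaloisVal

variable (K L : Type*) [Field K] [NumberField K] [Field L] [NumberField L] [Algebra K L]

/-! ### Primes of `L` above primes of `K` -/

/-- The prime of `K` below a prime of `L`. -/
def below (w : HeightOneSpectrum (𝓞 L)) : HeightOneSpectrum (𝓞 K) where
  asIdeal := w.asIdeal.under (𝓞 K)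
  isPrime := inferInstance
  ne_bot := Ideal.under_ne_bot (𝓞 K) w.ne_bot

theorem below_asIdeal (w : HeightOneSpectrum (𝓞 L)) :
    (below K L w).asIdeal = w.asIdeal.under (𝓞 K) := rfl

instance liesOver_below (w : HeightOneSpectrum (𝓞 L)) :
    w.asIdeal.LiesOver (below K L w).asIdeal := ⟨rfl⟩

theorem below_eq_of_liesOver (w : HeightOneSpectrum (𝓞 L)) (v : HeightOneSpectrum (𝓞 K))
    [h : w.asIdeal.LiesOver v.asIdeal] : below K L w = v :=
  HeightOneSpectrum.ext h.over.symm

/-- The valuation of `x ∈ K` at a prime of `L` in terms of the prime below. -/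
theorem valuation_algebraMap (w : HeightOneSpectrum (𝓞 L)) (x : K) :
    w.valuation L (algebraMap K L x) =
      (below K L w).valuation K x ^
        ((below K L w).asIdeal.ramificationIdx' w.asIdeal) :=
  (HeightOneSpectrum.valuation_liesOver L (below K L w) w x).symm

theorem ramificationIdx'_ne_zero (w : HeightOneSpectrum (𝓞 L)) :
    (below K L w).asIdeal.ramificationIdx' w.asIdeal ≠ 0 :=
  Ideal.IsDedekindDomain.ramificationIdx'_ne_zero_of_liesOver w.asIdeal (below K L w).ne_bot

/-- The set of primes of `L` above a finite set `T` of primes of `K`. -/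
def aboveSet (T : Finset (HeightOneSpectrum (𝓞 K))) : Set (HeightOneSpectrum (𝓞 L)) :=
  {w | below K L w ∈ T}

/-- The primes of `L` above a given prime of `K`. -/
def fibre (v : HeightOneSpectrum (𝓞 K)) : Set (HeightOneSpectrum (𝓞 L)) :=
  {w | below K L w = v}

/-- The primes of `L` above `v` as a subtype of ideals. -/
def fibreEquiv (v : HeightOneSpectrum (𝓞 K)) :
    fibre K L v ≃ Ideal.primesOver v.asIdeal (𝓞 L) where
  toFun w := ⟨w.1.asIdeal, w.1.isPrime, ⟨by
    have h : below K L w.1 = v := w.2
    exact (congrArg HeightOneSpectrum.asIdeal h).symm⟩⟩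
  invFun P := ⟨⟨P.1, P.2.1, Ideal.ne_bot_of_mem_primesOver v.ne_bot P.2⟩, by
    have : P.1.LiesOver v.asIdeal := P.2.2
    exact HeightOneSpectrum.ext (this.over).symm⟩
  left_inv w := rfl
  right_inv P := rfl

theorem finite_fibre (v : HeightOneSpectrum (𝓞 K)) : (fibre K L v).Finite := by
  have : Finite (Ideal.primesOver v.asIdeal (𝓞 L)) :=
    (IsDedekindDomain.primesOver_finite v.asIdeal (𝓞 L)).to_subtype
  have h2 : Finite (fibre K L v) := Finite.of_equiv _ (fibreEquiv K L v).symm
  exact Set.toFinite _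

theorem card_fibre (v : HeightOneSpectrum (𝓞 K)) :
    Nat.card (fibre K L v) = (Ideal.primesOver v.asIdeal (𝓞 L)).ncard := by
  rw [Nat.card_congr (fibreEquiv K L v)]
  rfl

variable (T : Finset (HeightOneSpectrum (𝓞 K)))

theorem finite_aboveSet : (aboveSet K L T).Finite := by
  have : aboveSet K L T = ⋃ v ∈ T, fibre K L v := by
    ext w
    simp [aboveSet, fibre]
  rw [this]
  exact Set.Finite.biUnion T.finite_toSet fun v _ => finite_fibre K L v

/-- The finite set of primes of `L` above `T`. -/
def above : Finset (HeightOneSpectrum (𝓞 L)) := (finite_aboveSet K L T).toFinset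

theorem mem_above {w : HeightOneSpectrum (𝓞 L)} : w ∈ above K L T ↔ below K L w ∈ T := by
  rw [above, Set.Finite.mem_toFinset]
  rfl

open scoped Classical in
theorem card_above :
    (above K L T).card = ∑ v ∈ T, (Ideal.primesOver v.asIdeal (𝓞 L)).ncard := by
  rw [Finset.card_eq_sum_card_fiberwise (f := below K L) (t := T)
    (fun w hw => (mem_above K L T).mp hw)]
  refine Finset.sum_congr rfl fun v hv => ?_
  rw [← card_fibre, Nat.card_eq_card_finite_toFinset (finite_fibre K L v)]
  congr 1
  ext w
  simp only [Finset.mem_filter, mem_above, Set.Finite.mem_toFinset, fibre, Set.mem_ofPred_eq]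
  constructor
  · rintro ⟨-, h⟩
    exact h
  · intro h
    exact ⟨h ▸ hv, h⟩

/-! ### Galois extensions of prime degree -/

section Galois

variable [IsGalois K L] {p : ℕ}

theorem ncard_primesOver_eq_one_or (hp : p.Prime) (hdeg : finrank K L = p)
    (v : HeightOneSpectrum (𝓞 K)) :
    (Ideal.primesOver v.asIdeal (𝓞 L)).ncard = 1 ∨ (Ideal.primesOver v.asIdeal (𝓞 L)).ncard = p := by
  have h := Ideal.ncard_primesOver_mul_ramificationIdxIn_mul_inertiaDegIn v.asIdeal (𝓞 L)
    (L ≃ₐ[K] L)
  rw [IsGalois.card_aut_eq_finrank, hdeg] at h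
  exact (Nat.dvd_prime hp).mp ⟨_, h.symm⟩

open scoped Classical in
/-- The number of `v ∈ T` with exactly one prime of `L` above. -/
def nonsplit : ℕ := (T.filter fun v => (Ideal.primesOver v.asIdeal (𝓞 L)).ncard = 1).card

open scoped Classical in
theorem card_above_add (hp : p.Prime) (hdeg : finrank K L = p) :
    (above K L T).card + (p - 1) * nonsplit K L T = p * T.card := by
  rw [card_above, nonsplit, Finset.card_filter, Finset.mul_sum, ← Finset.sum_add_distrib,
    Finset.card_eq_sum_ones, Finset.mul_sum]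
  refine Finset.sum_congr rfl fun v _ => ?_
  have hp1 : 1 ≤ p := hp.one_le
  rcases ncard_primesOver_eq_one_or K L hp hdeg v with h | h
  · rw [h, if_pos rfl]
    omega
  · rw [h, if_neg (by have := hp.two_le; omega)]
    omega

/-! ### The Galois action on `T_L`-units -/

/-- The restriction of `σ` to `𝓞 L`, as a ring automorphism. -/
def galE (σ : L ≃ₐ[K] L) : 𝓞 L ≃+* 𝓞 L := (galRestrict (𝓞 K) K L (𝓞 L) σ).toRingEquiv

theorem galE_spec (σ : L ≃ₐ[K] L) (r : 𝓞 L) :
    (σ : L ≃+* L) (algebraMap (𝓞 L) L r) = algebraMap (𝓞 L) L (galE K L σ r) :=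
  (algebraMap_galRestrict_apply (𝓞 K) σ r).symm

theorem galE_algebraMap (σ : L ≃ₐ[K] L) (a : 𝓞 K) :
    galE K L σ (algebraMap (𝓞 K) (𝓞 L) a) = algebraMap (𝓞 K) (𝓞 L) a :=
  (galRestrict (𝓞 K) K L (𝓞 L) σ).commutes a

/-- The valuation at `w` of `σ x` is the valuation of `x` at `σ⁻¹ w`. -/
theorem valuation_gal (σ : L ≃ₐ[K] L) (w : HeightOneSpectrum (𝓞 L)) (x : L) :
    w.valuation L (σ x) = (comapEquiv (galE K L σ) w).valuation L x :=
  (valuation_comapEquiv (galE K L σ) (σ : L ≃+* L) (galE_spec K L σ) w x).symm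

theorem below_comapEquiv (σ : L ≃ₐ[K] L) (w : HeightOneSpectrum (𝓞 L)) :
    below K L (comapEquiv (galE K L σ) w) = below K L w := by
  apply HeightOneSpectrum.ext
  ext a
  rw [below_asIdeal, below_asIdeal, Ideal.mem_under, Ideal.mem_under, comapEquiv_asIdeal,
    Ideal.mem_comap, galE_algebraMap]

/-- `σ` maps `T_L`-units to `T_L`-units. -/
def galT (σ : L ≃ₐ[K] L) : TUnits L (above K L T) →* TUnits L (above K L T) where
  toFun x := ⟨Units.map (σ : L →* L) x, fun w hw => by
    have hw' : comapEquiv (galE K L σ) w ∉ ((above K L T : Finset _) : Set _) := by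
      intro h
      apply hw
      rw [Finset.mem_coe, mem_above] at h ⊢
      rwa [below_comapEquiv] at h
    have := x.2 _ hw'
    rw [← valuation_gal] at this
    exact this⟩
  map_one' := by
    apply Subtype.ext
    simp
  map_mul' x y := by
    apply Subtype.ext
    simp

theorem galT_coe (σ : L ≃ₐ[K] L) (x : TUnits L (above K L T)) :
    (((galT K L T σ x : TUnits L (above K L T)) : Lˣ) : L) = σ ((x : Lˣ) : L) := rfl

theorem galT_one : galT K L T (1 : L ≃ₐ[K] L) = MonoidHom.id _ := by
  ext x
  rfl

theorem galT_mul (σ τ : L ≃ₐ[K] L) :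
    galT K L T (σ * τ) = (galT K L T σ).comp (galT K L T τ) := by
  ext x
  rfl

theorem galT_pow (σ : L ≃ₐ[K] L) (n : ℕ) (x : TUnits L (above K L T)) :
    galT K L T (σ ^ n) x = (galT K L T σ)^[n] x := by
  induction n generalizing x with
  | zero => rw [pow_zero, galT_one]; rfl
  | succ n ih =>
    rw [pow_succ, galT_mul, MonoidHom.comp_apply, ih, Function.iterate_succ_apply]

/-- The action of `σ` on the additive group of `T_L`-units. -/
def galAdd (σ : L ≃ₐ[K] L) :
    Additive (TUnits L (above K L T)) →+ Additive (TUnits L (above K L T)) :=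
  MonoidHom.toAdditive (galT K L T σ)

theorem galAdd_iterate (σ : L ≃ₐ[K] L) (n : ℕ) (x : Additive (TUnits L (above K L T))) :
    (galAdd K L T σ)^[n] x = Additive.ofMul (galT K L T (σ ^ n) (Additive.toMul x)) := by
  induction n generalizing x with
  | zero => rw [pow_zero, galT_one]; rfl
  | succ n ih =>
    rw [Function.iterate_succ_apply, ih, pow_succ, galT_mul]
    rfl

theorem galAdd_iterate_card (hdeg : finrank K L = p) (σ : L ≃ₐ[K] L)
    (x : Additive (TUnits L (above K L T))) : (galAdd K L T σ)^[p] x = x := by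
  have hσ : σ ^ p = 1 := by
    rw [← hdeg, ← IsGalois.card_aut_eq_finrank]
    exact pow_card_eq_one'
  rw [galAdd_iterate, hσ, galT_one]
  rfl

/-! ### The fixed part: `T`-units of `K` -/

/-- The inclusion of the `T`-units of `K` into the `T_L`-units of `L`. -/
def inclT : TUnits K T →* TUnits L (above K L T) where
  toFun x := ⟨Units.map (algebraMap K L : K →* L) x, fun w hw => by
    have hw' : below K L w ∉ ((T : Finset _) : Set _) := by
      intro h
      apply hw
      rw [Finset.mem_coe, mem_above]
      exact h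
    have h1 : (below K L w).valuation K ((x : Kˣ) : K) = 1 := x.2 _ hw'
    change w.valuation L (algebraMap K L ((x : Kˣ) : K)) = 1
    rw [valuation_algebraMap, h1, one_pow]⟩
  map_one' := by
    apply Subtype.ext
    simp
  map_mul' x y := by
    apply Subtype.ext
    simp

theorem inclT_coe (x : TUnits K T) :
    (((inclT K L T x : TUnits L (above K L T)) : Lˣ) : L) = algebraMap K L ((x : Kˣ) : K) := rfl

theorem inclT_injective : Function.Injective (inclT K L T) := by
  intro x y h
  have h' := congrArg (fun z : TUnits L (above K L T) => ((z : Lˣ) : L)) h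
  simp only [inclT_coe] at h'
  exact Subtype.ext (Units.ext ((algebraMap K L).injective h'))

/-- The inclusion as a `ℤ`-linear map. -/
def inclLin : Additive (TUnits K T) →ₗ[ℤ] Additive (TUnits L (above K L T)) :=
  (MonoidHom.toAdditive (inclT K L T)).toIntLinearMap

theorem inclLin_injective : Function.Injective (inclLin K L T) := by
  intro x y h
  have : inclT K L T (Additive.toMul x) = inclT K L T (Additive.toMul y) :=
    Additive.ofMul.injective h
  exact Additive.toMul.injective (inclT_injective K L T this)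

theorem fixed_of_gen {σ : L ≃ₐ[K] L} (hσ : ∀ τ : L ≃ₐ[K] L, τ ∈ Subgroup.zpowers σ)
    {x : L} (hx : σ x = x) (τ : L ≃ₐ[K] L) : τ x = x := by
  have h : Subgroup.zpowers σ ≤ MulAction.stabilizer (L ≃ₐ[K] L) x :=
    Subgroup.zpowers_le.mpr (MulAction.mem_stabilizer_iff.mpr hx)
  exact MulAction.mem_stabilizer_iff.mp (h (hσ τ))

open Fermat.Agent.CFT.C3.HerbrandPrime in
/-- The fixed submodule of the `T_L`-units is the image of the `T`-units of `K`. -/
theorem range_inclLin {σ : L ≃ₐ[K] L} (hσ : ∀ τ : L ≃ₐ[K] L, τ ∈ Subgroup.zpowers σ) :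
    LinearMap.range (inclLin K L T) = fixedSub (galAdd K L T σ) := by
  apply le_antisymm
  · rintro _ ⟨x, rfl⟩
    rw [mem_fixedSub]
    apply Additive.toMul.injective
    apply Subtype.ext
    apply Units.ext
    change σ (algebraMap K L _) = algebraMap K L _
    exact σ.commutes _
  · intro y hy
    rw [mem_fixedSub] at hy
    have hy' : σ (((Additive.toMul y : TUnits L (above K L T)) : Lˣ) : L)
        = (((Additive.toMul y : TUnits L (above K L T)) : Lˣ) : L) := by
      have := congrArg (fun z : Additive (TUnits L (above K L T)) =>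
        (((Additive.toMul z : TUnits L (above K L T)) : Lˣ) : L)) hy
      exact this
    obtain ⟨x, hx⟩ := (IsGalois.mem_range_algebraMap_iff_fixed _).mpr (fixed_of_gen K L hσ hy')
    have hx0 : x ≠ 0 := by
      rintro rfl
      rw [map_zero] at hx
      exact (Units.ne_zero _) hx.symm
    have hxT : Units.mk0 x hx0 ∈ TUnits K T := by
      intro v hv
      -- a prime of `L` above `v`
      obtain ⟨⟨P, hP1, hP2⟩⟩ : Nonempty (Ideal.primesOver v.asIdeal (𝓞 L)) := inferInstance
      let w : HeightOneSpectrum (𝓞 L) :=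
        ⟨P, hP1, Ideal.ne_bot_of_mem_primesOver v.ne_bot ⟨hP1, hP2⟩⟩
      have hwv : below K L w = v := HeightOneSpectrum.ext hP2.over.symm
      have hw : w ∉ ((above K L T : Finset _) : Set _) := by
        rw [Finset.mem_coe, mem_above, hwv]
        exact hv
      have h1 := (Additive.toMul y : TUnits L (above K L T)).2 w hw
      rw [← hx, valuation_algebraMap, hwv] at h1
      have hne : v.asIdeal.ramificationIdx' w.asIdeal ≠ 0 := by
        have := ramificationIdx'_ne_zero K L w
        rwa [hwv] at this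
      exact (pow_eq_one_iff.mp h1).resolve_right hne
    refine ⟨Additive.ofMul ⟨Units.mk0 x hx0, hxT⟩, ?_⟩
    apply Additive.toMul.injective
    apply Subtype.ext
    apply Units.ext
    exact hx

open Fermat.Agent.CFT.C3.HerbrandPrime in
theorem finrank_fixedSub {σ : L ≃ₐ[K] L} (hσ : ∀ τ : L ≃ₐ[K] L, τ ∈ Subgroup.zpowers σ) :
    finrank ℤ (fixedSub (galAdd K L T σ)) = NumberField.Units.rank K + T.card := by
  rw [← range_inclLin K L T hσ,
    ← (LinearEquiv.ofInjective (inclLin K L T) (inclLin_injective K L T)).finrank_eq,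
    finrank_TUnits]

/-! ### The Herbrand quotient -/

open Fermat.Agent.CFT.C3.HerbrandPrime Fermat.Agent.CFT.Herbrand in
/-- **The Herbrand quotient of the `T_L`-units** of a cyclic extension `L/K` of prime degree `p`
unramified at infinity: `h = p ^ u / p`, where `u` is the number of `v ∈ T` with exactly one prime
of `L` above `v`. -/
theorem herbrand_TUnits (hp : p.Prime) (hdeg : finrank K L = p)
    [IsUnramifiedAtInfinitePlaces K L]
    {σ : L ≃ₐ[K] L} (hσ : ∀ τ : L ≃ₐ[K] L, τ ∈ Subgroup.zpowers σ) :
    IsDefined (delta (galAdd K L T σ)) (nrm (galAdd K L T σ) p) ∧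
      herbrand (delta (galAdd K L T σ)) (nrm (galAdd K L T σ) p)
        = (p : ℚ) ^ nonsplit K L T / p := by
  obtain ⟨b, hb1, hb2, hb3⟩ := herbrand_prime hp (galAdd K L T σ)
    (galAdd_iterate_card K L T hdeg σ)
  refine ⟨hb2, ?_⟩
  rw [hb3, finrank_fixedSub K L T hσ]
  rw [finrank_fixedSub K L T hσ, finrank_TUnits] at hb1
  have h2 := card_above_add K L T hp hdeg
  have h3 : NumberField.Units.rank L + 1 = p * (NumberField.Units.rank K + 1) := by
    rw [NumberField.Units.rank, NumberField.Units.rank]
    have h := IsUnramifiedAtInfinitePlaces.card_infinitePlace K L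
    have hK : 0 < Fintype.card (InfinitePlace K) := Fintype.card_pos
    have hL : 0 < Fintype.card (InfinitePlace L) := Fintype.card_pos
    rw [hdeg] at h
    rw [Nat.sub_add_cancel hL, Nat.sub_add_cancel hK, h, mul_comm]
  -- arithmetic: `b + u = a + 1`
  have key : b + nonsplit K L T = NumberField.Units.rank K + T.card + 1 := by
    obtain ⟨q, rfl⟩ : ∃ q, p = q + 1 := ⟨p - 1, by have := hp.one_le; omega⟩
    simp only [Nat.add_sub_cancel] at hb1 h2
    have hq : 0 < q := by have := hp.two_le; omega
    apply Nat.eq_of_mul_eq_mul_left hq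
    nlinarith [hb1, h2, h3]
  have hp0 : (p : ℚ) ≠ 0 := by exact_mod_cast hp.ne_zero
  rw [div_eq_div_iff (pow_ne_zero _ hp0) hp0, ← pow_succ, ← pow_add, ← key, add_comm]

open Fermat.Agent.CFT.C3.HerbrandPrime Fermat.Agent.CFT.Herbrand in
/-- The same for odd `p` (where the condition at infinity is automatic). -/
theorem herbrand_TUnits_of_odd (hp : p.Prime) (hp2 : p ≠ 2) (hdeg : finrank K L = p)
    {σ : L ≃ₐ[K] L} (hσ : ∀ τ : L ≃ₐ[K] L, τ ∈ Subgroup.zpowers σ) :
    IsDefined (delta (galAdd K L T σ)) (nrm (galAdd K L T σ) p) ∧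
      herbrand (delta (galAdd K L T σ)) (nrm (galAdd K L T σ) p)
        = (p : ℚ) ^ nonsplit K L T / p := by
  have : IsUnramifiedAtInfinitePlaces K L :=
    IsUnramifiedAtInfinitePlaces_of_odd_finrank (hdeg ▸ hp.odd_of_ne_two hp2)
  exact herbrand_TUnits K L T hp hdeg hσ

end Galois

end Fermat.Agent.CFT.C3.SUnitHerbrand
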